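/-
S55 / 11b-TATE-CUP (helper90): explicit low-degree cup products on inhomogeneous cochains.
Mathlib only.  Arbitrary group `G`, arbitrary commutative ring `k`.
-/
import Mathlib

set_option autoImplicit false

open CategoryTheory groupCohomology

namespace Fermat.Agent.S55.Cup90

universe u

variable {k G : Type u} [CommRing k] [Group G]

/-- A `G`-equivariant `k`-bilinear pairing `A × B → C` of representations. -/
structure Pairing (A B C : Rep.{u} k G) where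
  /-- the underlying bilinear map -/
  toLin : A.V →ₗ[k] B.V →ₗ[k] C.V
  /-- equivariance -/
  map_smul' : ∀ (g : G) (a : A.V) (b : B.V), toLin (A.ρ g a) (B.ρ g b) = C.ρ g (toLin a b)

namespace Pairing

variable {A B C : Rep.{u} k G}

lemma map_rho (φ : Pairing A B C) (g : G) (a : A.V) (b : B.V) :
    φ.toLin (A.ρ g a) (B.ρ g b) = C.ρ g (φ.toLin a b) := φ.map_smul' g a b

/-- If `a` is invariant, `φ a (g b) = g (φ a b)`. -/
lemma map_rho_right_of_invariant (φ : Pairing A B C) {a : A.V} (ha : ∀ g : G, A.ρ g a = a)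
    (g : G) (b : B.V) : φ.toLin a (B.ρ g b) = C.ρ g (φ.toLin a b) := by
  rw [← φ.map_rho, ha]

/-- If `b` is invariant, `φ (g a) b = g (φ a b)`. -/
lemma map_rho_left_of_invariant (φ : Pairing A B C) {b : B.V} (hb : ∀ g : G, B.ρ g b = b)
    (g : G) (a : A.V) : φ.toLin (A.ρ g a) b = C.ρ g (φ.toLin a b) := by
  rw [← φ.map_rho, hb]

/-- The flipped pairing `B × A → C`. -/
def flip (φ : Pairing A B C) : Pairing B A C where
  toLin := φ.toLin.flip
  map_smul' g b a := φ.map_smul' g a b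

@[simp] lemma flip_toLin_apply (φ : Pairing A B C) (b : B.V) (a : A.V) :
    φ.flip.toLin b a = φ.toLin a b := rfl

end Pairing

section Cochains

variable {A B C : Rep.{u} k G} (φ : Pairing A B C)

/-- `H⁰ × C¹ → C¹`. -/
def cup₀₁ (a : A.V) (b : G → B.V) : G → C.V := fun g => φ.toLin a (b g)

/-- `C¹ × H⁰ → C¹`. -/
def cup₁₀ (a : G → A.V) (b : B.V) : G → C.V := fun g => φ.toLin (a g) (B.ρ g b)

/-- `H⁰ × C² → C²`. -/
def cup₀₂ (a : A.V) (b : G × G → B.V) : G × G → C.V := fun x => φ.toLin a (b x)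

/-- `C² × H⁰ → C²`. -/
def cup₂₀ (a : G × G → A.V) (b : B.V) : G × G → C.V :=
  fun x => φ.toLin (a x) (B.ρ (x.1 * x.2) b)

/-- `C¹ × C¹ → C²`. -/
def cup₁₁ (a : G → A.V) (b : G → B.V) : G × G → C.V :=
  fun x => φ.toLin (a x.1) (B.ρ x.1 (b x.2))

@[simp] lemma cup₀₁_apply (a : A.V) (b : G → B.V) (g : G) :
    cup₀₁ φ a b g = φ.toLin a (b g) := rfl
@[simp] lemma cup₁₀_apply (a : G → A.V) (b : B.V) (g : G) :
    cup₁₀ φ a b g = φ.toLin (a g) (B.ρ g b) := rfl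
@[simp] lemma cup₀₂_apply (a : A.V) (b : G × G → B.V) (x : G × G) :
    cup₀₂ φ a b x = φ.toLin a (b x) := rfl
@[simp] lemma cup₂₀_apply (a : G × G → A.V) (b : B.V) (x : G × G) :
    cup₂₀ φ a b x = φ.toLin (a x) (B.ρ (x.1 * x.2) b) := rfl
@[simp] lemma cup₁₁_apply (a : G → A.V) (b : G → B.V) (x : G × G) :
    cup₁₁ φ a b x = φ.toLin (a x.1) (B.ρ x.1 (b x.2)) := rfl

/-! ### Leibniz rules -/

/-- `d(x ∪ b) = dx ∪ b + x ∪ db` in degree `(0,1)`: no invariance assumed. -/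
theorem d₁₂_cup₀₁ (x : A.V) (b : G → B.V) :
    (d₁₂ C).hom (cup₀₁ φ x b) =
      cup₁₁ φ ((d₀₁ A).hom x) b + cup₀₂ φ x ((d₁₂ B).hom b) := by
  funext ⟨g, h⟩
  simp only [d₁₂_hom_apply, cup₀₁_apply, Pi.add_apply, cup₁₁_apply, d₀₁_hom_apply, cup₀₂_apply,
    map_sub, map_add, LinearMap.sub_apply, LinearMap.add_apply]
  rw [← φ.map_rho]
  abel

/-- `d(a ∪ y) = da ∪ y - a ∪ dy` in degree `(1,0)`: no invariance assumed. -/
theorem d₁₂_cup₁₀ (a : G → A.V) (y : B.V) :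
    (d₁₂ C).hom (cup₁₀ φ a y) =
      cup₂₀ φ ((d₁₂ A).hom a) y - cup₁₁ φ a ((d₀₁ B).hom y) := by
  funext ⟨g, h⟩
  simp only [d₁₂_hom_apply, cup₁₀_apply, Pi.sub_apply, cup₂₀_apply, cup₁₁_apply, d₀₁_hom_apply,
    map_sub, map_add, LinearMap.sub_apply, LinearMap.add_apply, map_mul, Module.End.mul_apply]
  rw [← φ.map_rho]
  abel

/-- The cup product of two 1-cocycles is a 2-cocycle. -/
theorem cup₁₁_mem_cocycles₂ {a : G → A.V} {b : G → B.V} (ha : a ∈ cocycles₁ A)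
    (hb : b ∈ cocycles₁ B) : cup₁₁ φ a b ∈ cocycles₂ C := by
  rw [mem_cocycles₁_iff] at ha hb
  rw [mem_cocycles₂_iff]
  intro g h j
  simp only [cup₁₁_apply, ha g h, hb h j, map_add, LinearMap.add_apply, map_mul,
    Module.End.mul_apply]
  rw [← φ.map_rho]
  abel

/-- Left coboundary rule. -/
theorem cup₁₁_d₀₁_left (x : A.V) {b : G → B.V} (hb : b ∈ cocycles₁ B) :
    cup₁₁ φ ((d₀₁ A).hom x) b = (d₁₂ C).hom (cup₀₁ φ x b) := by
  rw [d₁₂_cup₀₁]
  have h0 : ∀ x, (d₁₂ B).hom b x = 0 := fun x => congrFun hb x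
  funext x
  simp only [Pi.add_apply, cup₀₂_apply, h0 x, map_zero, add_zero]

/-- Right coboundary rule. -/
theorem cup₁₁_d₀₁_right {a : G → A.V} (ha : a ∈ cocycles₁ A) (y : B.V) :
    cup₁₁ φ a ((d₀₁ B).hom y) = -(d₁₂ C).hom (cup₁₀ φ a y) := by
  rw [d₁₂_cup₁₀]
  have h0 : ∀ x, (d₁₂ A).hom a x = 0 := fun x => congrFun ha x
  funext x
  simp only [Pi.neg_apply, Pi.sub_apply, cup₂₀_apply, h0 x, map_zero, LinearMap.zero_apply,
    zero_sub, neg_neg]

/-! ### Cups with invariants -/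

/-- `x ∪ -` maps 1-cocycles to 1-cocycles when `x` is invariant. -/
theorem cup₀₁_mem_cocycles₁ {x : A.V} (hx : ∀ g : G, A.ρ g x = x) {b : G → B.V}
    (hb : b ∈ cocycles₁ B) : cup₀₁ φ x b ∈ cocycles₁ C := by
  rw [mem_cocycles₁_iff] at hb ⊢
  intro g h
  simp only [cup₀₁_apply, hb g h, map_add]
  rw [φ.map_rho_right_of_invariant hx]

/-- `- ∪ y` maps 1-cocycles to 1-cocycles when `y` is invariant. -/
theorem cup₁₀_mem_cocycles₁ {a : G → A.V} (ha : a ∈ cocycles₁ A) {y : B.V}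
    (hy : ∀ g : G, B.ρ g y = y) : cup₁₀ φ a y ∈ cocycles₁ C := by
  rw [mem_cocycles₁_iff] at ha ⊢
  intro g h
  simp only [cup₁₀_apply, ha g h, map_add, LinearMap.add_apply, hy]
  rw [φ.map_rho_left_of_invariant hy]

/-- `x ∪ d y = d (x ∪ y)` when `x` is invariant (degree `(0,0)`). -/
theorem cup₀₁_d₀₁ {x : A.V} (hx : ∀ g : G, A.ρ g x = x) (y : B.V) :
    cup₀₁ φ x ((d₀₁ B).hom y) = (d₀₁ C).hom (φ.toLin x y) := by
  funext g
  simp only [cup₀₁_apply, d₀₁_hom_apply, map_sub]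
  rw [φ.map_rho_right_of_invariant hx]

/-- `d x ∪ y = d (x ∪ y)` when `y` is invariant (degree `(0,0)`). -/
theorem cup₁₀_d₀₁ (x : A.V) {y : B.V} (hy : ∀ g : G, B.ρ g y = y) :
    cup₁₀ φ ((d₀₁ A).hom x) y = (d₀₁ C).hom (φ.toLin x y) := by
  funext g
  simp only [cup₁₀_apply, d₀₁_hom_apply, map_sub, LinearMap.sub_apply, hy]
  rw [φ.map_rho_left_of_invariant hy]

/-- `x ∪ -` maps 2-cocycles to 2-cocycles when `x` is invariant. -/
theorem cup₀₂_mem_cocycles₂ {x : A.V} (hx : ∀ g : G, A.ρ g x = x) {b : G × G → B.V}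
    (hb : b ∈ cocycles₂ B) : cup₀₂ φ x b ∈ cocycles₂ C := by
  rw [mem_cocycles₂_iff] at hb ⊢
  intro g h j
  simp only [cup₀₂_apply]
  rw [← map_add, hb g h j, map_add, φ.map_rho_right_of_invariant hx]

/-- `x ∪ d b = d (x ∪ b)` when `x` is invariant (degree `(0,1)`). -/
theorem cup₀₂_d₁₂ {x : A.V} (hx : ∀ g : G, A.ρ g x = x) (b : G → B.V) :
    cup₀₂ φ x ((d₁₂ B).hom b) = (d₁₂ C).hom (cup₀₁ φ x b) := by
  rw [d₁₂_cup₀₁]
  funext y
  simp only [Pi.add_apply, cup₁₁_apply, d₀₁_hom_apply, hx, sub_self, map_zero,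
    LinearMap.zero_apply, zero_add]

/-- `- ∪ y` maps 2-cocycles to 2-cocycles when `y` is invariant. -/
theorem cup₂₀_mem_cocycles₂ {a : G × G → A.V} (ha : a ∈ cocycles₂ A) {y : B.V}
    (hy : ∀ g : G, B.ρ g y = y) : cup₂₀ φ a y ∈ cocycles₂ C := by
  rw [mem_cocycles₂_iff] at ha ⊢
  intro g h j
  simp only [cup₂₀_apply, hy]
  rw [← LinearMap.add_apply, ← map_add, ha g h j, map_add, LinearMap.add_apply,
    φ.map_rho_left_of_invariant hy]

/-- `d a ∪ y = d (a ∪ y)` when `y` is invariant (degree `(1,0)`). -/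
theorem cup₂₀_d₁₂ (a : G → A.V) {y : B.V} (hy : ∀ g : G, B.ρ g y = y) :
    cup₂₀ φ ((d₁₂ A).hom a) y = (d₁₂ C).hom (cup₁₀ φ a y) := by
  rw [d₁₂_cup₁₀]
  funext x
  simp only [Pi.sub_apply, cup₁₁_apply, d₀₁_hom_apply, hy, sub_self, map_zero, sub_zero]

end Cochains

end Fermat.Agent.S55.Cup90
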