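/-
S55 / 11b-TATE-CUP (helper90): cup products induced on `H⁰, H¹, H²` (Mathlib low-degree API).
-/
import Fermat.Agent.S55.Cup90.Basic

set_option autoImplicit false

open CategoryTheory groupCohomology

namespace Fermat.Agent.S55.Cup90

universe u

section Descend

variable {k : Type*} [CommRing k] {Z Q W : Type*} [AddCommGroup Z] [Module k Z]
  [AddCommGroup Q] [Module k Q] [AddCommGroup W] [Module k W]

/-- Descend a linear map along a surjection. -/
noncomputable def descend (π : Z →ₗ[k] Q) (hπ : Function.Surjective π) (f : Z →ₗ[k] W)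
    (hf : LinearMap.ker π ≤ LinearMap.ker f) : Q →ₗ[k] W :=
  (Submodule.liftQ (LinearMap.ker π) f hf).comp
    (LinearMap.quotKerEquivOfSurjective π hπ).symm.toLinearMap

@[simp] lemma descend_apply (π : Z →ₗ[k] Q) (hπ : Function.Surjective π) (f : Z →ₗ[k] W)
    (hf : LinearMap.ker π ≤ LinearMap.ker f) (z : Z) : descend π hπ f hf (π z) = f z := by
  have : (LinearMap.quotKerEquivOfSurjective π hπ).symm (π z) = Submodule.Quotient.mk z := by
    rw [LinearEquiv.symm_apply_eq]; rfl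
  simp [descend, this]

variable {Z' Q' : Type*} [AddCommGroup Z'] [Module k Z'] [AddCommGroup Q'] [Module k Q']

/-- Descend a bilinear map along two surjections. -/
noncomputable def descend₂ (π : Z →ₗ[k] Q) (hπ : Function.Surjective π)
    (π' : Z' →ₗ[k] Q') (hπ' : Function.Surjective π') (f : Z →ₗ[k] Z' →ₗ[k] W)
    (hf : ∀ z ∈ LinearMap.ker π, ∀ z', f z z' = 0)
    (hf' : ∀ z, ∀ z' ∈ LinearMap.ker π', f z z' = 0) : Q →ₗ[k] Q' →ₗ[k] W :=
  descend π hπ
    (LinearMap.flip (descend π' hπ' f.flip (fun z' hz' => by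
      rw [LinearMap.mem_ker]; ext z; simpa using hf' z z' hz')))
    (fun z hz => by
      rw [LinearMap.mem_ker]
      ext q'
      obtain ⟨z', rfl⟩ := hπ' q'
      simpa using hf z hz z')

@[simp] lemma descend₂_apply (π : Z →ₗ[k] Q) (hπ : Function.Surjective π)
    (π' : Z' →ₗ[k] Q') (hπ' : Function.Surjective π') (f : Z →ₗ[k] Z' →ₗ[k] W)
    (hf : ∀ z ∈ LinearMap.ker π, ∀ z', f z z' = 0)
    (hf' : ∀ z, ∀ z' ∈ LinearMap.ker π', f z z' = 0) (z : Z) (z' : Z') :
    descend₂ π hπ π' hπ' f hf hf' (π z) (π' z') = f z z' := by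
  simp [descend₂]

end Descend

variable {k G : Type u} [CommRing k] [Group G]

lemma H1π_surjective (A : Rep.{u} k G) : Function.Surjective (H1π A).hom :=
  (ModuleCat.epi_iff_surjective _).1 inferInstance

lemma H2π_surjective (A : Rep.{u} k G) : Function.Surjective (H2π A).hom :=
  (ModuleCat.epi_iff_surjective _).1 inferInstance

lemma mem_ker_H1π_iff {A : Rep.{u} k G} (x : cocycles₁ A) :
    x ∈ LinearMap.ker (H1π A).hom ↔ ∃ y : A.V, (d₀₁ A).hom y = (x : G → A.V) := by
  rw [LinearMap.mem_ker]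
  exact H1π_eq_zero_iff x

lemma mem_ker_H2π_iff {A : Rep.{u} k G} (x : cocycles₂ A) :
    x ∈ LinearMap.ker (H2π A).hom ↔ ∃ y : G → A.V, (d₁₂ A).hom y = (x : G × G → A.V) := by
  rw [LinearMap.mem_ker]
  exact H2π_eq_zero_iff x

variable {A B C : Rep.{u} k G} (φ : Pairing A B C)

/-- The cup product on 1-cocycles, as a bilinear map to 2-cocycles. -/
noncomputable def cupZ11 : cocycles₁ A →ₗ[k] cocycles₁ B →ₗ[k] cocycles₂ C :=
  LinearMap.mk₂ k (fun a b => ⟨cup₁₁ φ a.1 b.1, cup₁₁_mem_cocycles₂ φ a.2 b.2⟩)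
    (fun a a' b => Subtype.ext (funext fun x => by
      simp only [cup₁₁_apply, Submodule.coe_add, Pi.add_apply, map_add, LinearMap.add_apply]))
    (fun c a b => Subtype.ext (funext fun x => by
      simp only [cup₁₁_apply, Submodule.coe_smul, Pi.smul_apply, map_smul,
        LinearMap.smul_apply]))
    (fun a b b' => Subtype.ext (funext fun x => by
      simp only [cup₁₁_apply, Submodule.coe_add, Pi.add_apply, map_add]))
    (fun c a b => Subtype.ext (funext fun x => by
      simp only [cup₁₁_apply, Submodule.coe_smul, Pi.smul_apply, map_smul]))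

@[simp] lemma cupZ11_coe (a : cocycles₁ A) (b : cocycles₁ B) :
    ((cupZ11 φ a b : cocycles₂ C) : G × G → C.V) = cup₁₁ φ a.1 b.1 := rfl

/-- **Cup product** `H¹(G,A) × H¹(G,B) → H²(G,C)` attached to a pairing `A × B → C`. -/
noncomputable def cupH11 : H1 A →ₗ[k] H1 B →ₗ[k] H2 C :=
  descend₂ (H1π A).hom (H1π_surjective A) (H1π B).hom (H1π_surjective B)
    ((cupZ11 φ).compr₂ (H2π C).hom)
    (fun a ha b => by
      obtain ⟨x, hx⟩ := (mem_ker_H1π_iff a).1 ha
      simp only [LinearMap.compr₂_apply]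
      refine (H2π_eq_zero_iff _).2 ⟨cup₀₁ φ x b.1, ?_⟩
      have h1 := cup₁₁_d₀₁_left φ x b.2
      have hx' : (d₀₁ A).hom x = a.1 := hx
      rw [hx'] at h1
      exact h1.symm)
    (fun a b hb => by
      obtain ⟨y, hy⟩ := (mem_ker_H1π_iff b).1 hb
      simp only [LinearMap.compr₂_apply]
      refine (H2π_eq_zero_iff _).2 ⟨-cup₁₀ φ a.1 y, ?_⟩
      have h1 := cup₁₁_d₀₁_right φ a.2 y
      have hy' : (d₀₁ B).hom y = b.1 := hy
      rw [hy'] at h1
      rw [map_neg]
      exact h1.symm)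

@[simp] lemma cupH11_π (a : cocycles₁ A) (b : cocycles₁ B) :
    cupH11 φ ((H1π A).hom a) ((H1π B).hom b) = (H2π C).hom (cupZ11 φ a b) := by
  simp [cupH11]

/-! ### Cups with `H⁰ = A.ρ.invariants` -/

/-- `H⁰ × Z² → Z²`. -/
noncomputable def cupZ02 : A.ρ.invariants →ₗ[k] cocycles₂ B →ₗ[k] cocycles₂ C :=
  LinearMap.mk₂ k (fun a b => ⟨cup₀₂ φ a.1 b.1, cup₀₂_mem_cocycles₂ φ a.2 b.2⟩)
    (fun a a' b => Subtype.ext (funext fun x => by
      simp only [cup₀₂_apply, Submodule.coe_add, Pi.add_apply, map_add, LinearMap.add_apply]))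
    (fun c a b => Subtype.ext (funext fun x => by
      simp only [cup₀₂_apply, Submodule.coe_smul, Pi.smul_apply, map_smul,
        LinearMap.smul_apply]))
    (fun a b b' => Subtype.ext (funext fun x => by
      simp only [cup₀₂_apply, Submodule.coe_add, Pi.add_apply, map_add]))
    (fun c a b => Subtype.ext (funext fun x => by
      simp only [cup₀₂_apply, Submodule.coe_smul, Pi.smul_apply, map_smul]))

@[simp] lemma cupZ02_coe (a : A.ρ.invariants) (b : cocycles₂ B) :
    ((cupZ02 φ a b : cocycles₂ C) : G × G → C.V) = cup₀₂ φ a.1 b.1 := rfl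

/-- **Cup product** `H⁰(G,A) × H²(G,B) → H²(G,C)`. -/
noncomputable def cupH02 : A.ρ.invariants →ₗ[k] H2 B →ₗ[k] H2 C :=
  LinearMap.flip <| descend (H2π B).hom (H2π_surjective B)
    (((cupZ02 φ).compr₂ (H2π C).hom).flip)
    (fun b hb => by
      obtain ⟨y, hy⟩ := (mem_ker_H2π_iff b).1 hb
      rw [LinearMap.mem_ker]
      ext a
      simp only [LinearMap.flip_apply, LinearMap.compr₂_apply, LinearMap.zero_apply]
      refine (H2π_eq_zero_iff _).2 ⟨cup₀₁ φ a.1 y, ?_⟩
      have h1 := cup₀₂_d₁₂ φ a.2 y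
      have hy' : (d₁₂ B).hom y = b.1 := hy
      rw [hy'] at h1
      exact h1.symm)

@[simp] lemma cupH02_π (a : A.ρ.invariants) (b : cocycles₂ B) :
    cupH02 φ a ((H2π B).hom b) = (H2π C).hom (cupZ02 φ a b) := by
  simp [cupH02]

/-- `Z² × H⁰ → Z²`. -/
noncomputable def cupZ20 : cocycles₂ A →ₗ[k] B.ρ.invariants →ₗ[k] cocycles₂ C :=
  LinearMap.mk₂ k (fun a b => ⟨cup₂₀ φ a.1 b.1, cup₂₀_mem_cocycles₂ φ a.2 b.2⟩)
    (fun a a' b => Subtype.ext (funext fun x => by
      simp only [cup₂₀_apply, Submodule.coe_add, Pi.add_apply, map_add, LinearMap.add_apply]))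
    (fun c a b => Subtype.ext (funext fun x => by
      simp only [cup₂₀_apply, Submodule.coe_smul, Pi.smul_apply, map_smul,
        LinearMap.smul_apply]))
    (fun a b b' => Subtype.ext (funext fun x => by
      simp only [cup₂₀_apply, Submodule.coe_add, Pi.add_apply, map_add]))
    (fun c a b => Subtype.ext (funext fun x => by
      simp only [cup₂₀_apply, Submodule.coe_smul, Pi.smul_apply, map_smul]))

@[simp] lemma cupZ20_coe (a : cocycles₂ A) (b : B.ρ.invariants) :
    ((cupZ20 φ a b : cocycles₂ C) : G × G → C.V) = cup₂₀ φ a.1 b.1 := rfl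

/-- **Cup product** `H²(G,A) × H⁰(G,B) → H²(G,C)`. -/
noncomputable def cupH20 : H2 A →ₗ[k] B.ρ.invariants →ₗ[k] H2 C :=
  descend (H2π A).hom (H2π_surjective A) ((cupZ20 φ).compr₂ (H2π C).hom)
    (fun a ha => by
      obtain ⟨y, hy⟩ := (mem_ker_H2π_iff a).1 ha
      rw [LinearMap.mem_ker]
      ext b
      simp only [LinearMap.compr₂_apply, LinearMap.zero_apply]
      refine (H2π_eq_zero_iff _).2 ⟨cup₁₀ φ y b.1, ?_⟩
      have h1 := cup₂₀_d₁₂ φ y b.2
      have hy' : (d₁₂ A).hom y = a.1 := hy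
      rw [hy'] at h1
      exact h1.symm)

@[simp] lemma cupH20_π (a : cocycles₂ A) (b : B.ρ.invariants) :
    cupH20 φ ((H2π A).hom a) b = (H2π C).hom (cupZ20 φ a b) := by
  simp [cupH20]

/-- `H⁰ × Z¹ → Z¹`. -/
noncomputable def cupZ01 : A.ρ.invariants →ₗ[k] cocycles₁ B →ₗ[k] cocycles₁ C :=
  LinearMap.mk₂ k (fun a b => ⟨cup₀₁ φ a.1 b.1, cup₀₁_mem_cocycles₁ φ a.2 b.2⟩)
    (fun a a' b => Subtype.ext (funext fun x => by
      simp only [cup₀₁_apply, Submodule.coe_add, Pi.add_apply, map_add, LinearMap.add_apply]))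
    (fun c a b => Subtype.ext (funext fun x => by
      simp only [cup₀₁_apply, Submodule.coe_smul, Pi.smul_apply, map_smul,
        LinearMap.smul_apply]))
    (fun a b b' => Subtype.ext (funext fun x => by
      simp only [cup₀₁_apply, Submodule.coe_add, Pi.add_apply, map_add]))
    (fun c a b => Subtype.ext (funext fun x => by
      simp only [cup₀₁_apply, Submodule.coe_smul, Pi.smul_apply, map_smul]))

@[simp] lemma cupZ01_coe (a : A.ρ.invariants) (b : cocycles₁ B) :
    ((cupZ01 φ a b : cocycles₁ C) : G → C.V) = cup₀₁ φ a.1 b.1 := rfl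

/-- **Cup product** `H⁰(G,A) × H¹(G,B) → H¹(G,C)`. -/
noncomputable def cupH01 : A.ρ.invariants →ₗ[k] H1 B →ₗ[k] H1 C :=
  LinearMap.flip <| descend (H1π B).hom (H1π_surjective B)
    (((cupZ01 φ).compr₂ (H1π C).hom).flip)
    (fun b hb => by
      obtain ⟨y, hy⟩ := (mem_ker_H1π_iff b).1 hb
      rw [LinearMap.mem_ker]
      ext a
      simp only [LinearMap.flip_apply, LinearMap.compr₂_apply, LinearMap.zero_apply]
      refine (H1π_eq_zero_iff _).2 ⟨φ.toLin a.1 y, ?_⟩
      have h1 := cup₀₁_d₀₁ φ a.2 y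
      have hy' : (d₀₁ B).hom y = b.1 := hy
      rw [hy'] at h1
      exact h1.symm)

@[simp] lemma cupH01_π (a : A.ρ.invariants) (b : cocycles₁ B) :
    cupH01 φ a ((H1π B).hom b) = (H1π C).hom (cupZ01 φ a b) := by
  simp [cupH01]

/-- `Z¹ × H⁰ → Z¹`. -/
noncomputable def cupZ10 : cocycles₁ A →ₗ[k] B.ρ.invariants →ₗ[k] cocycles₁ C :=
  LinearMap.mk₂ k (fun a b => ⟨cup₁₀ φ a.1 b.1, cup₁₀_mem_cocycles₁ φ a.2 b.2⟩)
    (fun a a' b => Subtype.ext (funext fun x => by
      simp only [cup₁₀_apply, Submodule.coe_add, Pi.add_apply, map_add, LinearMap.add_apply]))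
    (fun c a b => Subtype.ext (funext fun x => by
      simp only [cup₁₀_apply, Submodule.coe_smul, Pi.smul_apply, map_smul,
        LinearMap.smul_apply]))
    (fun a b b' => Subtype.ext (funext fun x => by
      simp only [cup₁₀_apply, Submodule.coe_add, Pi.add_apply, map_add]))
    (fun c a b => Subtype.ext (funext fun x => by
      simp only [cup₁₀_apply, Submodule.coe_smul, Pi.smul_apply, map_smul]))

@[simp] lemma cupZ10_coe (a : cocycles₁ A) (b : B.ρ.invariants) :
    ((cupZ10 φ a b : cocycles₁ C) : G → C.V) = cup₁₀ φ a.1 b.1 := rfl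

/-- **Cup product** `H¹(G,A) × H⁰(G,B) → H¹(G,C)`. -/
noncomputable def cupH10 : H1 A →ₗ[k] B.ρ.invariants →ₗ[k] H1 C :=
  descend (H1π A).hom (H1π_surjective A) ((cupZ10 φ).compr₂ (H1π C).hom)
    (fun a ha => by
      obtain ⟨y, hy⟩ := (mem_ker_H1π_iff a).1 ha
      rw [LinearMap.mem_ker]
      ext b
      simp only [LinearMap.compr₂_apply, LinearMap.zero_apply]
      refine (H1π_eq_zero_iff _).2 ⟨φ.toLin y b.1, ?_⟩
      have h1 := cup₁₀_d₀₁ φ y b.2
      have hy' : (d₀₁ A).hom y = a.1 := hy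
      rw [hy'] at h1
      exact h1.symm)

@[simp] lemma cupH10_π (a : cocycles₁ A) (b : B.ρ.invariants) :
    cupH10 φ ((H1π A).hom a) b = (H1π C).hom (cupZ10 φ a b) := by
  simp [cupH10]

end Fermat.Agent.S55.Cup90
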